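import Fermat.Agent.JPC.Chart

set_option autoImplicit false

/-! S25, block G: the line data of a matrix point. -/

universe u

open TensorProduct Polynomial

namespace Fermat.Agent.JPC

section Laurent

variable {B : Type u} [CommRing B]

theorem lcoeff_mul (f g : LaurentPolynomial B) (n : ℤ) :
    (f * g).coeff n = f.coeff.sum fun m r => r * g.coeff (-m + n) :=
  AddMonoidAlgebra.coeff_mul_apply_left f g n

theorem lmul_lo {f g : LaurentPolynomial B} {a b : ℤ} (hf : ∀ n < a, f.coeff n = 0)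
    (hg : ∀ n < b, g.coeff n = 0) : ∀ n < a + b, (f * g).coeff n = 0 := by
  intro n hn
  rw [lcoeff_mul]
  refine Finset.sum_eq_zero fun m _ => ?_
  dsimp only
  by_cases hm : m < a
  · rw [hf m hm, zero_mul]
  · rw [hg _ (by omega), mul_zero]

theorem lmul_hi {f g : LaurentPolynomial B} {a b : ℤ} (hf : ∀ n, a < n → f.coeff n = 0)
    (hg : ∀ n, b < n → g.coeff n = 0) : ∀ n, a + b < n → (f * g).coeff n = 0 := by
  intro n hn
  rw [lcoeff_mul]
  refine Finset.sum_eq_zero fun m _ => ?_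
  dsimp only
  by_cases hm : a < m
  · rw [hf m hm, zero_mul]
  · rw [hg _ (by omega), mul_zero]

/-- for `f` with only exponents `≤ 0`... the constant coefficient of a product -/
theorem lcoeff_mul_zero_lo {f g : LaurentPolynomial B} (hf : ∀ n < 0, f.coeff n = 0)
    (hg : ∀ n < 0, g.coeff n = 0) : (f * g).coeff 0 = f.coeff 0 * g.coeff 0 := by
  classical
  rw [lcoeff_mul, Finsupp.sum]
  by_cases h0 : (0 : ℤ) ∈ f.coeff.support
  · rw [Finset.sum_eq_single_of_mem 0 h0]
    · simp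
    · intro m _ hm
      rcases lt_trichotomy m 0 with h | h | h
      · rw [hf m h, zero_mul]
      · exact absurd h hm
      · rw [hg _ (by omega), mul_zero]
  · rw [Finsupp.notMem_support_iff.mp h0, zero_mul]
    refine Finset.sum_eq_zero fun m hm => ?_
    rcases lt_trichotomy m 0 with h | h | h
    · rw [hf m h, zero_mul]
    · exact absurd (h ▸ hm) h0
    · rw [hg _ (by omega), mul_zero]

theorem lcoeff_T_mul (n m : ℤ) (f : LaurentPolynomial B) :
    (LaurentPolynomial.T n * f).coeff m = f.coeff (m - n) := by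
  rw [LaurentPolynomial.T, AddMonoidAlgebra.coeff_single_mul_apply, one_mul]
  congr 1
  ring

end Laurent

variable {k : Type u} [Field k] {X : TwoChart k} {ι : Idx X} {B : Type u} [CommRing B] [Algebra k B]

namespace MPt

variable (Φ : MPt X ι B)

/-- the action of `A` on `B[T;T⁻¹]^d` -/
@[reducible] noncomputable def modA : Module X.A (Fin X.d → LaurentPolynomial B) where
  smul a v := (Φ.Φ a).mulVec v
  one_smul v := by
    show (Φ.Φ 1).mulVec v = v
    rw [map_one, Matrix.one_mulVec]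
  mul_smul a b v := by
    show (Φ.Φ (a * b)).mulVec v = (Φ.Φ a).mulVec ((Φ.Φ b).mulVec v)
    rw [map_mul, Matrix.mulVec_mulVec]
  smul_zero a := Matrix.mulVec_zero _
  smul_add a v w := Matrix.mulVec_add _ _ _
  add_smul a b v := by
    show (Φ.Φ (a + b)).mulVec v = (Φ.Φ a).mulVec v + (Φ.Φ b).mulVec v
    rw [map_add, Matrix.add_mulVec]
  zero_smul v := by
    show (Φ.Φ 0).mulVec v = 0
    rw [map_zero, Matrix.zero_mulVec]

theorem Φ_tpow (n : ℕ) : Φ.Φ ((X.t : X.A) ^ n) =
    Matrix.scalar (Fin X.d) (LaurentPolynomial.T (n : ℤ)) := by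
  rw [map_pow, Φ.Φ_t, ← map_pow, LaurentPolynomial.T_pow, mul_one]

theorem Φ_tinv : Φ.Φ ((X.t⁻¹ : X.Aˣ) : X.A) = Matrix.scalar (Fin X.d) (LaurentPolynomial.T (-1)) := by
  have h : Φ.Φ ((X.t⁻¹ : X.Aˣ) : X.A) * Φ.Φ (X.t : X.A) = 1 := by
    rw [← map_mul, Units.inv_mul, map_one]
  have h2 : Φ.Φ (X.t : X.A) * Matrix.scalar (Fin X.d) (LaurentPolynomial.T (-1)) = 1 := by
    rw [Φ.Φ_t, ← map_mul, ← LaurentPolynomial.T_add]
    norm_num
  calc Φ.Φ ((X.t⁻¹ : X.Aˣ) : X.A) = Φ.Φ ((X.t⁻¹ : X.Aˣ) : X.A) *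
        (Φ.Φ (X.t : X.A) * Matrix.scalar (Fin X.d) (LaurentPolynomial.T (-1))) := by
          rw [h2, mul_one]
    _ = _ := by rw [← mul_assoc, h, one_mul]

theorem Φ_tinvpow (n : ℕ) : Φ.Φ (((X.t⁻¹ : X.Aˣ) : X.A) ^ n) =
    Matrix.scalar (Fin X.d) (LaurentPolynomial.T (-(n : ℤ))) := by
  rw [map_pow, Φ_tinv, ← map_pow, LaurentPolynomial.T_pow]
  congr 2
  ring

/-- vectors with exponents `≥ 0` -/
def N0 (d : ℕ) (B : Type u) [CommRing B] : Submodule B (Fin d → LaurentPolynomial B) where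
  carrier := {v | ∀ i, ∀ n : ℤ, n < 0 → (v i).coeff n = 0}
  add_mem' {v w} hv hw i n hn := by
    show (v i + w i).coeff n = 0
    rw [AddMonoidAlgebra.coeff_add, Finsupp.add_apply, hv i n hn, hw i n hn, add_zero]
  zero_mem' i n _ := rfl
  smul_mem' b v hv i n hn := by
    show (b • v i).coeff n = 0
    rw [AddMonoidAlgebra.coeff_smul_apply, hv i n hn, smul_zero]

/-- vectors with exponents `< 0` -/
def N1 (d : ℕ) (B : Type u) [CommRing B] : Submodule B (Fin d → LaurentPolynomial B) where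
  carrier := {v | ∀ i, ∀ n : ℤ, 0 ≤ n → (v i).coeff n = 0}
  add_mem' {v w} hv hw i n hn := by
    show (v i + w i).coeff n = 0
    rw [AddMonoidAlgebra.coeff_add, Finsupp.add_apply, hv i n hn, hw i n hn, add_zero]
  zero_mem' i n _ := rfl
  smul_mem' b v hv i n hn := by
    show (b • v i).coeff n = 0
    rw [AddMonoidAlgebra.coeff_smul_apply, hv i n hn, smul_zero]

theorem exists_lo {d : ℕ} (v : Fin d → LaurentPolynomial B) :
    ∃ N : ℕ, ∀ i, ∀ n : ℤ, n < -(N : ℤ) → (v i).coeff n = 0 := by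
  classical
  have h : ∀ i, ∃ N : ℕ, ∀ n : ℤ, n < -(N : ℤ) → (v i).coeff n = 0 := by
    intro i
    refine ⟨(v i).coeff.support.sup Int.natAbs, fun n hn => ?_⟩
    by_contra hne
    have := Finset.le_sup (f := Int.natAbs) (Finsupp.mem_support_iff.mpr hne)
    omega
  choose N hN using h
  refine ⟨Finset.univ.sup N, fun i n hn => hN i n ?_⟩
  have := Finset.le_sup (f := N) (Finset.mem_univ i)
  omega

theorem exists_hi {d : ℕ} (v : Fin d → LaurentPolynomial B) :
    ∃ N : ℕ, ∀ i, ∀ n : ℤ, (N : ℤ) ≤ n → (v i).coeff n = 0 := by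
  classical
  have h : ∀ i, ∃ N : ℕ, ∀ n : ℤ, (N : ℤ) ≤ n → (v i).coeff n = 0 := by
    intro i
    refine ⟨(v i).coeff.support.sup Int.natAbs + 1, fun n hn => ?_⟩
    by_contra hne
    have := Finset.le_sup (f := Int.natAbs) (Finsupp.mem_support_iff.mpr hne)
    omega
  choose N hN using h
  refine ⟨Finset.univ.sup N, fun i n hn => hN i n ?_⟩
  have := Finset.le_sup (f := N) (Finset.mem_univ i)
  omega

/-- the line data of a matrix point -/
noncomputable def toLD : PreLD X B :=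
  letI := Φ.modA
  have hsm : ∀ (a : X.A) (v : Fin X.d → LaurentPolynomial B), a • v = (Φ.Φ a).mulVec v :=
    fun _ _ => rfl
  { M := Fin X.d → LaurentPolynomial B
    kB := ⟨fun c b v => by
      funext i
      show (c • b) • v i = c • b • v i
      ext n
      simp [smul_assoc]⟩
    kA := ⟨fun c a v => by
      rw [hsm, hsm, map_smul, Matrix.smul_mulVec]⟩
    comm := ⟨fun b a v => by
      rw [hsm, hsm]
      funext i
      simp only [Matrix.mulVec, dotProduct, Pi.smul_apply, Finset.smul_sum]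
      refine Finset.sum_congr rfl fun j _ => ?_
      rw [mul_smul_comm]⟩
    M0 := N0 X.d B
    M1 := N1 X.d B
    smul0 := fun a ha v hv i n hn => by
      show ((Φ.Φ a).mulVec v i).coeff n = 0
      rw [Matrix.mulVec, dotProduct, AddMonoidAlgebra.coeff_sum, Finsupp.finsetSum_apply]
      exact Finset.sum_eq_zero fun j _ => lmul_lo (a := 0) (b := 0) (Φ.Φ0 a ha i j) (hv j) n (by simpa using hn)
    smul1 := fun a ha v hv i n hn => by
      show ((Φ.Φ a).mulVec v i).coeff n = 0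
      rw [Matrix.mulVec, dotProduct, AddMonoidAlgebra.coeff_sum, Finsupp.finsetSum_apply]
      exact Finset.sum_eq_zero fun j _ => lmul_hi (a := 0) (b := -1) (Φ.Φ1 a ha i j)
        (fun n hn => hv j n (by omega)) n (by omega)
    ex0 := fun v => by
      obtain ⟨N, hN⟩ := exists_lo v
      refine ⟨N, fun i n hn => ?_⟩
      show ((Φ.Φ ((X.t : X.A) ^ N)).mulVec v i).coeff n = 0
      rw [Φ.Φ_tpow, Matrix.scalar_apply, Matrix.mulVec_diagonal, lcoeff_T_mul]
      exact hN i _ (by omega)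
    ex1 := fun v => by
      obtain ⟨N, hN⟩ := exists_hi v
      refine ⟨N, fun i n hn => ?_⟩
      show ((Φ.Φ (((X.t⁻¹ : X.Aˣ) : X.A) ^ N)).mulVec v i).coeff n = 0
      rw [Φ.Φ_tinvpow, Matrix.scalar_apply, Matrix.mulVec_diagonal, lcoeff_T_mul]
      exact hN i _ (by omega) }

@[simp] theorem toLD_smul (a : X.A) (v : Fin X.d → LaurentPolynomial B) :
    a • (show Φ.toLD.M from v) = (show Φ.toLD.M from (Φ.Φ a).mulVec v) := rfl

theorem mem_toLD_M0 (v : Φ.toLD.M) : v ∈ Φ.toLD.M0 ↔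
    ∀ i, ∀ n : ℤ, n < 0 → ((show Fin X.d → LaurentPolynomial B from v) i).coeff n = 0 := Iff.rfl

theorem mem_toLD_M1 (v : Φ.toLD.M) : v ∈ Φ.toLD.M1 ↔
    ∀ i, ∀ n : ℤ, 0 ≤ n → ((show Fin X.d → LaurentPolynomial B from v) i).coeff n = 0 := Iff.rfl

end MPt

end Fermat.Agent.JPC
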