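import Fermat.Agent.JPC.FromLD

set_option autoImplicit false

/-! S25, block G: line data in a chart come from matrix points (2). -/

universe u

open TensorProduct Polynomial

namespace Fermat.Agent.JPC

variable {k : Type u} [Field k] {X : TwoChart k} {ι : Idx X} {B : Type u} [CommRing B] [Algebra k B]

namespace PreLD

variable {L : PreLD X B}

attribute [local instance] modT

section

variable (h : L.Acyclic) (r : L.Rig) (hb : Function.Bijective (h.coord r ι))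

/-- `Ψ` as an equivalence -/
noncomputable def Acyclic.Ψe : (Fin X.d → LaurentPolynomial B) ≃ₗ[LaurentPolynomial B] L.M :=
  LinearEquiv.ofBijective (h.Ψ r hb) ⟨h.Ψ_injective r hb, h.Ψ_surjective r hb⟩

theorem Acyclic.Ψe_apply (v) : h.Ψe r hb v = h.Ψ r hb v := rfl

/-- the basis `w` of `M` over `B[T;T⁻¹]` -/
noncomputable def Acyclic.bas : Module.Basis (Fin X.d) (LaurentPolynomial B) L.M :=
  Module.Basis.ofEquivFun (h.Ψe r hb).symm

theorem Acyclic.bas_apply (i : Fin X.d) : h.bas r hb i = h.wv r hb i := by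
  rw [Acyclic.bas, Module.Basis.coe_ofEquivFun]
  show h.Ψ r hb (Pi.single i 1) = _
  rw [Acyclic.Ψ_apply, Finset.sum_eq_single i]
  · rw [Pi.single_eq_same, one_smul]
  · intro j _ hj
    rw [Pi.single_eq_of_ne hj, zero_smul]
  · intro hi
    exact absurd (Finset.mem_univ _) hi

theorem Acyclic.bas_repr (m : L.M) (i : Fin X.d) : (h.bas r hb).repr m i = (h.Ψe r hb).symm m i := rfl

/-- action of `A` by `B[T;T⁻¹]`-linear maps -/
noncomputable def actT (L : PreLD X B) : X.A →+* Module.End (LaurentPolynomial B) L.M where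
  toFun a :=
    { toFun := fun m => a • m
      map_add' := smul_add a
      map_smul' := fun f m => smul_comm a f m }
  map_one' := by ext m; exact one_smul _ m
  map_mul' a b := by ext m; exact mul_smul a b m
  map_zero' := by ext m; exact zero_smul _ m
  map_add' a b := by ext m; exact add_smul a b m

theorem actT_apply (a : X.A) (m : L.M) : L.actT a m = a • m := rfl

theorem algebraMap_smul_M (c : k) (m : L.M) :
    (algebraMap k (LaurentPolynomial B) c) • m = (algebraMap k X.A c) • m := by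
  have h1 : (algebraMap k (LaurentPolynomial B) c) = .single 0 (algebraMap k B c) := by
    rw [AddMonoidAlgebra.coe_algebraMap]; rfl
  rw [h1, single_smul, tz_zero, one_smul, algebraMap_smul, algebraMap_smul]

theorem Acyclic.Ψ_mem0_iff (v : Fin X.d → LaurentPolynomial B) :
    h.Ψ r hb v ∈ L.M0 ↔ v ∈ MPt.N0 X.d B := by
  refine ⟨fun hv => ?_, h.Ψ_mem0 r hb v⟩
  have htop : v ∈ MPt.N0 X.d B ⊔ MPt.N1 X.d B := by
    rw [(MPt.isCompl_N X.d B).sup_eq_top]; exact Submodule.mem_top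
  obtain ⟨a, ha, b, hb', rfl⟩ := Submodule.mem_sup.mp htop
  have h1 : h.Ψ r hb b ∈ L.M0 := by
    have : h.Ψ r hb b = h.Ψ r hb (a + b) - h.Ψ r hb a := by rw [map_add]; abel
    rw [this]
    exact L.M0.sub_mem hv (h.Ψ_mem0 r hb a ha)
  have h2 : h.Ψ r hb b = 0 := h.eq_zero h1 (h.Ψ_mem1 r hb b hb')
  have h3 : b = 0 := h.Ψ_injective r hb (by rw [h2, map_zero])
  rw [h3, add_zero]
  exact ha

theorem Acyclic.Ψ_mem1_iff (v : Fin X.d → LaurentPolynomial B) :
    h.Ψ r hb v ∈ L.M1 ↔ v ∈ MPt.N1 X.d B := by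
  refine ⟨fun hv => ?_, h.Ψ_mem1 r hb v⟩
  have htop : v ∈ MPt.N0 X.d B ⊔ MPt.N1 X.d B := by
    rw [(MPt.isCompl_N X.d B).sup_eq_top]; exact Submodule.mem_top
  obtain ⟨a, ha, b, hb', rfl⟩ := Submodule.mem_sup.mp htop
  have h1 : h.Ψ r hb a ∈ L.M1 := by
    have : h.Ψ r hb a = h.Ψ r hb (a + b) - h.Ψ r hb b := by rw [map_add]; abel
    rw [this]
    exact L.M1.sub_mem hv (h.Ψ_mem1 r hb b hb')
  have h2 : h.Ψ r hb a = 0 := h.eq_zero (h.Ψ_mem0 r hb a ha) h1
  have h3 : a = 0 := h.Ψ_injective r hb (by rw [h2, map_zero])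
  rw [h3, zero_add]
  exact hb'

theorem Acyclic.fn_one (m : L.M0) : h.fn r 1 (m : L.M) = r.lam m := by
  show r.lam (h.p0 ((1 : X.A) • (m : L.M))) = r.lam m
  rw [one_smul]
  congr 1
  exact Submodule.projectionOnto_apply_left h m

theorem Acyclic.lam_wv (i : Fin X.d) (hm : h.wv r hb i ∈ L.M0) :
    r.lam ⟨h.wv r hb i, hm⟩ = if i = ⟨0, X.d_pos⟩ then 1 else 0 := by
  have h1 := congrFun (h.coord_wv r hb i) ⟨0, X.d_pos⟩
  have h2 : h.coord r ι ⟨h.wv r hb i, h.wv_mem r hb i⟩ ⟨0, X.d_pos⟩ =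
    h.fn r (ι.c ⟨0, X.d_pos⟩) (h.wv r hb i) := rfl
  rw [h2, ι.c_zero] at h1
  have h3 := h.fn_one r (⟨h.wv r hb i, hm⟩ : L.M0)
  rw [← h3]
  show h.fn r 1 (h.wv r hb i) = _
  rw [h1, Pi.single_apply]
  congr 1
  exact propext ⟨Eq.symm, Eq.symm⟩

/-- `λ (Ψ v) = (v 0)(0)` for `v ∈ N0` -/
theorem Acyclic.lam_Ψ (v : Fin X.d → LaurentPolynomial B) (hv : v ∈ MPt.N0 X.d B)
    (hm : h.Ψ r hb v ∈ L.M0) : r.lam ⟨h.Ψ r hb v, hm⟩ = (v ⟨0, X.d_pos⟩).coeff 0 := by
  obtain ⟨v', hv', hd⟩ := MPt.exists_shift v hv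
  have hm' := h.Ψ_mem0 r hb v' hv'
  have h1 : (⟨h.Ψ r hb v, hm⟩ : L.M0) =
      ⟨h.Ψ r hb (fun i => LaurentPolynomial.C ((v i).coeff 0)), W_le_M0 (h.Ψ_const_mem r hb _)⟩ +
      ⟨(X.t : X.A) • h.Ψ r hb v', L.smul0 _ X.t_mem _ hm'⟩ := by
    apply Subtype.ext
    show h.Ψ r hb v = h.Ψ r hb (fun i => LaurentPolynomial.C ((v i).coeff 0)) +
      (X.t : X.A) • h.Ψ r hb v'
    conv_lhs => rw [hd]
    rw [map_add, map_smul, Tn_smul, tz_one]
  have h2 : r.lam ⟨(X.t : X.A) • h.Ψ r hb v', L.smul0 _ X.t_mem _ hm'⟩ = 0 := by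
    have := r.smul ⟨X.t, X.t_mem⟩ ⟨_, hm'⟩
    rw [X.ev_t, map_zero, zero_mul] at this
    exact this
  rw [h1, map_add, h2, add_zero]
  have h3 : (⟨h.Ψ r hb (fun i => LaurentPolynomial.C ((v i).coeff 0)),
      W_le_M0 (h.Ψ_const_mem r hb _)⟩ : L.M0) =
      ∑ i, (v i).coeff 0 • (⟨h.wv r hb i, W_le_M0 (h.wv_mem r hb i)⟩ : L.M0) := by
    apply Subtype.ext
    rw [Submodule.coe_sum]
    show h.Ψ r hb (fun i => LaurentPolynomial.C ((v i).coeff 0)) = _
    rw [Acyclic.Ψ_apply]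
    refine Finset.sum_congr rfl fun i _ => ?_
    rw [← LaurentPolynomial.single_eq_C, single_smul, tz_zero, one_smul]
    rfl
  rw [h3, map_sum, Finset.sum_eq_single ⟨0, X.d_pos⟩]
  · rw [map_smul, h.lam_wv, if_pos rfl, smul_eq_mul, mul_one]
  · intro j _ hj
    rw [map_smul, h.lam_wv, if_neg hj, smul_zero]
  · intro hi
    exact absurd (Finset.mem_univ _) hi

/-- the matrices -/
noncomputable def Acyclic.mat : X.A →+* Matrix (Fin X.d) (Fin X.d) (LaurentPolynomial B) :=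
  ((LinearMap.toMatrixAlgEquiv (h.bas r hb)).toRingEquiv.toRingHom).comp L.actT

theorem Acyclic.mat_apply (a : X.A) (i j : Fin X.d) :
    h.mat r hb a i j = (h.Ψe r hb).symm (a • h.wv r hb j) i := by
  show LinearMap.toMatrixAlgEquiv (h.bas r hb) (L.actT a) i j = _
  rw [LinearMap.toMatrixAlgEquiv_apply, bas_repr, bas_apply, actT_apply]

theorem Acyclic.Ψ_mat (a : X.A) (j : Fin X.d) :
    h.Ψ r hb (fun i => h.mat r hb a i j) = a • h.wv r hb j := by
  have : (fun i => h.mat r hb a i j) = (h.Ψe r hb).symm (a • h.wv r hb j) := by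
    funext i
    exact h.mat_apply r hb a i j
  rw [this, ← h.Ψe_apply, LinearEquiv.apply_symm_apply]

theorem Acyclic.Ψ_mulVec (a : X.A) (v : Fin X.d → LaurentPolynomial B) :
    h.Ψ r hb ((h.mat r hb a).mulVec v) = a • h.Ψ r hb v := by
  rw [h.Ψ_apply r hb v, Finset.smul_sum]
  have h1 : (h.mat r hb a).mulVec v = ∑ j, v j • (fun i => h.mat r hb a i j) := by
    funext i
    rw [Matrix.mulVec, dotProduct, Finset.sum_apply]
    refine Finset.sum_congr rfl fun j _ => ?_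
    rw [Pi.smul_apply, smul_eq_mul, mul_comm]
  rw [h1, map_sum]
  refine Finset.sum_congr rfl fun j _ => ?_
  rw [map_smul, h.Ψ_mat, ← smul_comm a]

theorem Acyclic.mat_of_smul (a : X.A) (f : LaurentPolynomial B) (hf : ∀ m : L.M, a • m = f • m) :
    h.mat r hb a = Matrix.scalar (Fin X.d) f := by
  have h1 : L.actT a = f • (1 : Module.End (LaurentPolynomial B) L.M) := by
    ext m
    exact hf m
  show LinearMap.toMatrixAlgEquiv (h.bas r hb) (L.actT a) = _
  rw [h1, map_smul, map_one]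
  ext i j
  rw [Matrix.smul_apply, Matrix.one_apply, Matrix.scalar_apply, Matrix.diagonal_apply]
  split_ifs <;> simp

theorem Acyclic.p0_Ψ (v : Fin X.d → LaurentPolynomial B) :
    h.p0 (h.Ψ r hb v) = ⟨h.Ψ r hb (fun i => MPt.pos (v i)),
      h.Ψ_mem0 r hb _ (fun i n hn => MPt.pos_coeff_neg _ n hn)⟩ := by
  have h3 : v = (fun i => MPt.pos (v i)) + (fun i => MPt.neg (v i)) := by
    funext i
    exact (MPt.pos_add_neg _).symm
  have h1 : h.Ψ r hb (fun i => MPt.pos (v i)) ∈ L.M0 :=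
    h.Ψ_mem0 r hb _ (fun i n hn => MPt.pos_coeff_neg _ n hn)
  have h2 : h.Ψ r hb (fun i => MPt.neg (v i)) ∈ L.M1 :=
    h.Ψ_mem1 r hb _ (fun i n hn => MPt.neg_coeff _ n hn)
  have h5 : h.p0 (h.Ψ r hb (fun i => MPt.pos (v i))) = ⟨_, h1⟩ :=
    Submodule.projectionOnto_apply_of_mem_left _ h1
  have h6 : h.p0 (h.Ψ r hb (fun i => MPt.neg (v i))) = 0 :=
    Submodule.projectionOnto_apply_of_mem_right _ h2
  conv_lhs => rw [h3]
  rw [map_add, map_add, h5, h6, add_zero]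

/-- the matrix point -/
noncomputable def Acyclic.toMPt : MPt X ι B where
  Φ := { h.mat r hb with
    commutes' := fun c => by
      show h.mat r hb (algebraMap k X.A c) = _
      rw [h.mat_of_smul r hb _ (algebraMap k (LaurentPolynomial B) c)
        (fun m => (algebraMap_smul_M c m).symm)]
      rfl }
  Φ_t := h.mat_of_smul r hb _ _ (fun m => by rw [Tn_smul, tz_one])
  Φ0 := fun a ha i j n hn => by
    have h1 : (fun i => h.mat r hb a i j) ∈ MPt.N0 X.d B := by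
      rw [← h.Ψ_mem0_iff r hb, h.Ψ_mat]
      exact L.smul0 a ha _ (W_le_M0 (h.wv_mem r hb j))
    exact h1 i n hn
  Φ1 := fun a ha i j n hn => by
    have h1 : (LaurentPolynomial.T (-1) : LaurentPolynomial B) • (fun i => h.mat r hb a i j) ∈
        MPt.N1 X.d B := by
      rw [← h.Ψ_mem1_iff r hb, map_smul, h.Ψ_mat, Tn_smul, smul_smul, mul_comm, mul_smul]
      exact L.smul1 a ha _ ((mem_W_iff _).mp (h.wv_mem r hb j)).2
    have h2 := h1 i (n - 1) (by omega)
    have h3 : (LaurentPolynomial.T (-1) * h.mat r hb a i j).coeff (n - 1) = 0 := h2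
    rw [lcoeff_T_mul] at h3
    simpa using h3
  row := fun a j => by
    have h1 : h.Ψ r hb (fun i => h.mat r hb a i j) ∈ L.M0 := by
      rw [h.Ψ_mat]
      exact L.smul0 a a.2 _ (W_le_M0 (h.wv_mem r hb j))
    have h2 := h.lam_Ψ r hb _ ((h.Ψ_mem0_iff r hb _).mp h1) h1
    have h3 : (⟨h.Ψ r hb (fun i => h.mat r hb a i j), h1⟩ : L.M0) =
        ⟨(a : X.A) • ((⟨h.wv r hb j, W_le_M0 (h.wv_mem r hb j)⟩ : L.M0) : L.M),
          L.smul0 _ a.2 _ (W_le_M0 (h.wv_mem r hb j))⟩ := by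
      apply Subtype.ext
      exact h.Ψ_mat r hb a j
    rw [h3, r.smul, h.lam_wv] at h2
    show (h.mat r hb a ⟨0, X.d_pos⟩ j).coeff 0 = _
    rw [← h2]
    split_ifs <;> simp
  norm := fun i j => by
    show (h.mat r hb (ι.c i) ⟨0, X.d_pos⟩ j).coeff 0 = _
    have h1 := congrFun (h.coord_wv r hb j) i
    have h2 : h.coord r ι ⟨h.wv r hb j, h.wv_mem r hb j⟩ i =
      r.lam (h.p0 (ι.c i • h.wv r hb j)) := rfl
    rw [h2, Pi.single_apply, ← h.Ψ_mat, h.p0_Ψ, h.lam_Ψ r hb _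
      (fun i n hn => MPt.pos_coeff_neg _ n hn), MPt.pos_coeff _ _ le_rfl] at h1
    exact h1

/-- a line data in the chart is isomorphic to the line data of its matrix point -/
noncomputable def Acyclic.isoMPt : PreLD.Iso (h.toMPt r hb).toLD L where
  e := (show (Fin X.d → LaurentPolynomial B) ≃ₗ[B] L.M from (h.Ψe r hb).restrictScalars B)
  smul := fun a m => h.Ψ_mulVec r hb a ((h.toMPt r hb).out m)
  map0 := by
    ext m
    constructor
    · rintro ⟨v, hv, rfl⟩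
      exact h.Ψ_mem0 r hb v hv
    · intro hm
      refine ⟨(h.Ψe r hb).symm m, ?_, (h.Ψe r hb).apply_symm_apply m⟩
      show _ ∈ MPt.N0 X.d B
      rw [← h.Ψ_mem0_iff r hb, ← h.Ψe_apply, LinearEquiv.apply_symm_apply]
      exact hm
  map1 := by
    ext m
    constructor
    · rintro ⟨v, hv, rfl⟩
      exact h.Ψ_mem1 r hb v hv
    · intro hm
      refine ⟨(h.Ψe r hb).symm m, ?_, (h.Ψe r hb).apply_symm_apply m⟩
      show _ ∈ MPt.N1 X.d B
      rw [← h.Ψ_mem1_iff r hb, ← h.Ψe_apply, LinearEquiv.apply_symm_apply]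
      exact hm

end

/-- G3: every line data in the chart comes from a matrix point -/
theorem InChart.exists_iso (hL : L.InChart ι) :
    ∃ Φ : MPt X ι B, Nonempty (PreLD.Iso Φ.toLD L) := by
  obtain ⟨h, r, hb⟩ := hL
  exact ⟨h.toMPt r hb, ⟨h.isoMPt r hb⟩⟩

end PreLD

end Fermat.Agent.JPC
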