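import Fermat.Agent.JPC.LDof

set_option autoImplicit false

/-! S25, block G: the line data of a matrix point lies in the chart. -/

universe u

open TensorProduct Polynomial

namespace Fermat.Agent.JPC

variable {k : Type u} [Field k] {X : TwoChart k} {ι : Idx X} {B : Type u} [CommRing B] [Algebra k B]

namespace MPt

/-- the part of exponents `≥ 0` -/
noncomputable def pos (f : LaurentPolynomial B) : LaurentPolynomial B :=
  AddMonoidAlgebra.ofCoeff (f.coeff.filter (0 ≤ ·))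

/-- the part of exponents `< 0` -/
noncomputable def neg (f : LaurentPolynomial B) : LaurentPolynomial B :=
  AddMonoidAlgebra.ofCoeff (f.coeff.filter (fun n => ¬ (0 ≤ n)))

theorem pos_add_neg (f : LaurentPolynomial B) : pos f + neg f = f := by
  refine AddMonoidAlgebra.coeff_injective ?_
  rw [AddMonoidAlgebra.coeff_add]
  exact Finsupp.filter_add_filter_not _ _

theorem pos_coeff (f : LaurentPolynomial B) (n : ℤ) (hn : 0 ≤ n) : (pos f).coeff n = f.coeff n :=
  Finsupp.filter_apply_pos _ _ hn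

theorem pos_coeff_neg (f : LaurentPolynomial B) (n : ℤ) (hn : n < 0) : (pos f).coeff n = 0 :=
  Finsupp.filter_apply_neg _ _ (by omega)

theorem neg_coeff (f : LaurentPolynomial B) (n : ℤ) (hn : 0 ≤ n) : (neg f).coeff n = 0 :=
  Finsupp.filter_apply_neg _ _ (by simpa using hn)

theorem isCompl_N (d : ℕ) (B : Type u) [CommRing B] : IsCompl (N0 d B) (N1 d B) := by
  constructor
  · rw [Submodule.disjoint_def]
    intro v h0 h1
    funext i
    refine AddMonoidAlgebra.coeff_injective ?_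
    ext n
    rcases lt_or_ge n 0 with h | h
    · exact h0 i n h
    · exact h1 i n h
  · rw [codisjoint_iff, Submodule.eq_top_iff']
    intro v
    refine Submodule.mem_sup.mpr ⟨fun i => pos (v i), fun i n hn => pos_coeff_neg _ n hn,
      fun i => neg (v i), fun i n hn => neg_coeff _ n hn, ?_⟩
    funext i
    exact pos_add_neg _

variable (Φ : MPt X ι B)

/-- vectors as elements of `Φ.toLD.M` -/
def inn (v : Fin X.d → LaurentPolynomial B) : Φ.toLD.M := v

/-- elements of `Φ.toLD.M` as vectors -/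
def out (m : Φ.toLD.M) : Fin X.d → LaurentPolynomial B := m

@[simp] theorem out_inn (v : Fin X.d → LaurentPolynomial B) : Φ.out (Φ.inn v) = v := rfl
@[simp] theorem inn_out (m : Φ.toLD.M) : Φ.inn (Φ.out m) = m := rfl
theorem out_add (m n : Φ.toLD.M) : Φ.out (m + n) = Φ.out m + Φ.out n := rfl
theorem out_bsmul (b : B) (m : Φ.toLD.M) : Φ.out (b • m) = b • Φ.out m := rfl
theorem out_smul (a : X.A) (m : Φ.toLD.M) : Φ.out (a • m) = (Φ.Φ a).mulVec (Φ.out m) := rfl
theorem out_injective : Function.Injective Φ.out := fun _ _ h => h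
theorem mem0 (m : Φ.toLD.M) : m ∈ Φ.toLD.M0 ↔ ∀ i, ∀ n : ℤ, n < 0 → (Φ.out m i).coeff n = 0 := Iff.rfl
theorem mem1 (m : Φ.toLD.M) : m ∈ Φ.toLD.M1 ↔ ∀ i, ∀ n : ℤ, 0 ≤ n → (Φ.out m i).coeff n = 0 := Iff.rfl

theorem out_t_smul (m : Φ.toLD.M) (i : Fin X.d) (n : ℤ) :
    (Φ.out ((X.t : X.A) • m) i).coeff n = (Φ.out m i).coeff (n - 1) := by
  rw [out_smul, Φ.Φ_t, Matrix.scalar_apply, Matrix.mulVec_diagonal, lcoeff_T_mul]

theorem out_tinv_smul (m : Φ.toLD.M) (i : Fin X.d) (n : ℤ) :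
    (Φ.out (((X.t⁻¹ : X.Aˣ) : X.A) • m) i).coeff n = (Φ.out m i).coeff (n + 1) := by
  rw [out_smul, Φ.Φ_tinv, Matrix.scalar_apply, Matrix.mulVec_diagonal, lcoeff_T_mul]
  congr 1

theorem acyclic : Φ.toLD.Acyclic := isCompl_N X.d B

theorem p0_eq (v : Φ.toLD.M) : ((Φ.acyclic.p0 v : Φ.toLD.M0) : Φ.toLD.M) =
    Φ.inn (fun i => pos (Φ.out v i)) := by
  have h1 : Φ.inn (fun i => pos (Φ.out v i)) ∈ Φ.toLD.M0 := fun i n hn => pos_coeff_neg _ n hn
  have h2 : Φ.inn (fun i => neg (Φ.out v i)) ∈ Φ.toLD.M1 := fun i n hn => neg_coeff _ n hn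
  have h3 : v = Φ.inn (fun i => pos (Φ.out v i)) + Φ.inn (fun i => neg (Φ.out v i)) := by
    funext i
    exact (pos_add_neg _).symm
  have h4 : Φ.acyclic.p0 v = Φ.acyclic.p0 (Φ.inn (fun i => pos (Φ.out v i))) +
      Φ.acyclic.p0 (Φ.inn (fun i => neg (Φ.out v i))) := by
    rw [← map_add, ← h3]
  have h5 : Φ.acyclic.p0 (Φ.inn (fun i => pos (Φ.out v i))) = ⟨_, h1⟩ :=
    Submodule.projectionOnto_apply_of_mem_left _ h1
  have h6 : Φ.acyclic.p0 (Φ.inn (fun i => neg (Φ.out v i))) = 0 :=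
    Submodule.projectionOnto_apply_of_mem_right _ h2
  rw [h4, h5, h6, add_zero]

/-- the rigidification -/
noncomputable def rig : Φ.toLD.Rig where
  lam :=
    { toFun := fun v => (Φ.out (v : Φ.toLD.M) ⟨0, X.d_pos⟩).coeff 0
      map_add' := fun v w => by
        rw [Submodule.coe_add, out_add, Pi.add_apply, AddMonoidAlgebra.coeff_add, Finsupp.add_apply]
      map_smul' := fun b v => by
        rw [Submodule.coe_smul, out_bsmul, Pi.smul_apply, AddMonoidAlgebra.coeff_smul_apply]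
        rfl }
  smul := fun a v => by
    show (Φ.out ((a : X.A) • (v : Φ.toLD.M)) ⟨0, X.d_pos⟩).coeff 0 = algebraMap k B (X.ev a) *
      (Φ.out (v : Φ.toLD.M) ⟨0, X.d_pos⟩).coeff 0
    have hm : ∀ j, (Φ.Φ (a : X.A) ⟨0, X.d_pos⟩ j * Φ.out (v : Φ.toLD.M) j).coeff 0 =
        (if j = ⟨0, X.d_pos⟩ then algebraMap k B (X.ev a) else 0) *
          (Φ.out (v : Φ.toLD.M) j).coeff 0 := fun j => by
      rw [← Φ.row]
      exact lcoeff_mul_zero_lo (Φ.Φ0 a a.2 _ j) ((Φ.mem0 _).mp v.2 j)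
    rw [out_smul, Matrix.mulVec, dotProduct, AddMonoidAlgebra.coeff_sum, Finsupp.finsetSum_apply,
      Finset.sum_congr rfl fun j _ => hm j, Finset.sum_eq_single ⟨0, X.d_pos⟩]
    · rw [if_pos rfl]
    · intro j _ hj
      rw [if_neg hj, zero_mul]
    · intro h
      exact absurd (Finset.mem_univ _) h
  surj := fun b => by
    refine ⟨⟨Φ.inn fun _ => LaurentPolynomial.C b, fun i n hn => ?_⟩, ?_⟩
    · show (LaurentPolynomial.C b).coeff n = 0
      rw [LaurentPolynomial.C_apply, if_neg hn.ne]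
    · show (LaurentPolynomial.C b).coeff 0 = b
      rw [LaurentPolynomial.C_apply, if_pos rfl]

theorem rig_apply (v : Φ.toLD.M0) : Φ.rig.lam v = (Φ.out (v : Φ.toLD.M) ⟨0, X.d_pos⟩).coeff 0 := rfl

theorem mem_W (v : Φ.toLD.M) : v ∈ Φ.toLD.W ↔
    ∃ b : Fin X.d → B, v = Φ.inn fun i => LaurentPolynomial.C (b i) := by
  constructor
  · rintro ⟨h0, w, hw, hv⟩
    have hv' : (X.t : X.A) • w = v := hv
    refine ⟨fun i => (Φ.out v i).coeff 0, ?_⟩
    refine Φ.out_injective ?_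
    funext i
    refine AddMonoidAlgebra.coeff_injective ?_
    ext n
    rw [out_inn, LaurentPolynomial.C_apply]
    rcases lt_trichotomy n 0 with h | h | h
    · rw [if_neg h.ne]; exact h0 i n h
    · rw [if_pos h, h]
    · rw [if_neg h.ne', ← hv', out_t_smul]
      exact hw i _ (by omega)
  · rintro ⟨b, rfl⟩
    refine ⟨fun i n hn => ?_, ((X.t⁻¹ : X.Aˣ) : X.A) •
      (Φ.inn fun i => LaurentPolynomial.C (b i)), ?_, ?_⟩
    · show (LaurentPolynomial.C (b i)).coeff n = 0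
      rw [LaurentPolynomial.C_apply, if_neg hn.ne]
    · show _ ∈ Φ.toLD.M1
      rw [mem1]
      intro i n hn
      rw [out_tinv_smul, out_inn, LaurentPolynomial.C_apply, if_neg (by omega)]
    · show (X.t : X.A) • (((X.t⁻¹ : X.Aˣ) : X.A) • (Φ.inn fun i => LaurentPolynomial.C (b i))) = _
      rw [← mul_smul, Units.mul_inv, one_smul]

theorem coord_eq (b : Fin X.d → B)
    (hw : (Φ.inn fun i => LaurentPolynomial.C (b i)) ∈ Φ.toLD.W) :
    Φ.acyclic.coord Φ.rig ι ⟨_, hw⟩ = b := by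
  funext i
  show Φ.rig.lam (Φ.acyclic.p0 (ι.c i • (Φ.inn fun i => LaurentPolynomial.C (b i)))) = b i
  rw [rig_apply, p0_eq, out_inn, pos_coeff _ _ le_rfl, out_smul, out_inn, Matrix.mulVec, dotProduct,
    AddMonoidAlgebra.coeff_sum, Finsupp.finsetSum_apply, Finset.sum_eq_single i]
  · rw [mul_comm, ← LaurentPolynomial.single_eq_C, AddMonoidAlgebra.coeff_single_mul_apply,
      neg_zero, zero_add, Φ.norm, if_pos rfl, mul_one]
  · intro j _ hj
    rw [mul_comm, ← LaurentPolynomial.single_eq_C, AddMonoidAlgebra.coeff_single_mul_apply,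
      neg_zero, zero_add, Φ.norm, if_neg (Ne.symm hj), mul_zero]
  · intro h
    exact absurd (Finset.mem_univ _) h

theorem inChart : Φ.toLD.InChart ι := by
  refine ⟨Φ.acyclic, Φ.rig, ?_, ?_⟩
  · rintro ⟨v, hv⟩ ⟨w, hw⟩ h
    obtain ⟨b, rfl⟩ := (Φ.mem_W v).mp hv
    obtain ⟨b', rfl⟩ := (Φ.mem_W w).mp hw
    rw [coord_eq, coord_eq] at h
    subst h
    rfl
  · intro b
    exact ⟨⟨_, (Φ.mem_W _).mpr ⟨b, rfl⟩⟩, Φ.coord_eq b _⟩

end MPt

end Fermat.Agent.JPC
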