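import Mathlib

set_option autoImplicit false

/-! S25: two-chart algebra of a curve and line data over a base ring `B`. -/

universe u

open TensorProduct Polynomial

namespace Fermat.Agent.JPC

/-- Two-chart algebra of a proper curve `C = U ∪ V` over `k`:
`A = Γ(U ∩ V)`, `A0 = Γ(U)`, `A1 = Γ(V)`, `t ∈ A0`, `t⁻¹ ∈ A1`. -/
structure TwoChart (k : Type u) [Field k] where
  A : Type u
  [commRing : CommRing A]
  [algebra : Algebra k A]
  A0 : Subalgebra k A
  A1 : Subalgebra k A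
  t : Aˣ
  t_mem : (t : A) ∈ A0
  tinv_mem : ((t⁻¹ : Aˣ) : A) ∈ A1
  ex0 : ∀ a : A, ∃ n : ℕ, (t : A) ^ n * a ∈ A0
  ex1 : ∀ a : A, ∃ n : ℕ, ((t⁻¹ : Aˣ) : A) ^ n * a ∈ A1
  inf : A0 ⊓ A1 = ⊥
  /-- degree of `C → ℙ¹` -/
  d : ℕ
  d_pos : 0 < d
  b0 : Fin d → A
  b0_mem : ∀ i, b0 i ∈ A0
  b0_basis : ∀ a ∈ A0, ∃! f : Fin d → k[X], a = ∑ i, aeval (t : A) (f i) * b0 i
  b1 : Fin d → A
  b1_mem : ∀ i, b1 i ∈ A1
  b1_basis : ∀ a ∈ A1, ∃! f : Fin d → k[X], a = ∑ i, aeval ((t⁻¹ : Aˣ) : A) (f i) * b1 i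
  /-- the point `ε ∈ U(k)`, `t(ε) = 0` -/
  ev : A0 →ₐ[k] k
  ev_t : ev ⟨t, t_mem⟩ = 0
  dom : ∀ (κ : Type u) [Field κ] [Algebra k κ], IsDomain (κ ⊗[k] A)
  ded0 : ∀ (κ : Type u) [Field κ] [Algebra k κ],
    IsDomain (κ ⊗[k] A0) ∧ IsDedekindRing (κ ⊗[k] A0)
  ded1 : ∀ (κ : Type u) [Field κ] [Algebra k κ],
    IsDomain (κ ⊗[k] A1) ∧ IsDedekindRing (κ ⊗[k] A1)

attribute [instance] TwoChart.commRing TwoChart.algebra

/-- Line data over the `k`-algebra `B`, without invertibility. -/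
structure PreLD {k : Type u} [Field k] (X : TwoChart k) (B : Type u) [CommRing B] [Algebra k B] where
  M : Type u
  [acg : AddCommGroup M]
  [modk : Module k M]
  [modB : Module B M]
  [modA : Module X.A M]
  [kB : IsScalarTower k B M]
  [kA : IsScalarTower k X.A M]
  [comm : SMulCommClass B X.A M]
  M0 : Submodule B M
  M1 : Submodule B M
  smul0 : ∀ a ∈ X.A0, ∀ m ∈ M0, a • m ∈ M0
  smul1 : ∀ a ∈ X.A1, ∀ m ∈ M1, a • m ∈ M1
  ex0 : ∀ m : M, ∃ n : ℕ, ((X.t : X.A) ^ n) • m ∈ M0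
  ex1 : ∀ m : M, ∃ n : ℕ, (((X.t⁻¹ : X.Aˣ) : X.A) ^ n) • m ∈ M1

attribute [instance] PreLD.acg PreLD.modk PreLD.modB PreLD.modA PreLD.kB PreLD.kA PreLD.comm

namespace PreLD

variable {k : Type u} [Field k] {X : TwoChart k} {B : Type u} [CommRing B] [Algebra k B]

instance instModT (L : PreLD X B) : Module (B ⊗[k] X.A) L.M := TensorProduct.Algebra.module

instance instModT0 (L : PreLD X B) : Module (B ⊗[k] X.A0) L.M := TensorProduct.Algebra.module

instance instModT1 (L : PreLD X B) : Module (B ⊗[k] X.A1) L.M := TensorProduct.Algebra.module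

variable (L : PreLD X B)

@[simp] theorem tmul_smul (b : B) (a : X.A) (m : L.M) : (b ⊗ₜ[k] a) • m = b • a • m := rfl

@[simp] theorem tmul_smul0 (b : B) (a : X.A0) (m : L.M) : (b ⊗ₜ[k] a) • m = b • (a : X.A) • m := rfl

@[simp] theorem tmul_smul1 (b : B) (a : X.A1) (m : L.M) : (b ⊗ₜ[k] a) • m = b • (a : X.A) • m := rfl

instance instTower : IsScalarTower B (B ⊗[k] X.A) L.M :=
  ⟨fun b s m => by
    induction s using TensorProduct.induction_on with
    | zero => rw [smul_zero, zero_smul (B ⊗[k] X.A) m, smul_zero]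
    | tmul c a => simp [TensorProduct.smul_tmul', mul_smul]
    | add x y hx hy => rw [smul_add, add_smul, add_smul, smul_add, hx, hy]⟩

instance instTower0 : IsScalarTower B (B ⊗[k] X.A0) L.M :=
  ⟨fun b s m => by
    induction s using TensorProduct.induction_on with
    | zero => rw [smul_zero, zero_smul (B ⊗[k] X.A0) m, smul_zero]
    | tmul c a => simp [TensorProduct.smul_tmul', mul_smul]
    | add x y hx hy => rw [smul_add, add_smul, add_smul, smul_add, hx, hy]⟩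

instance instTower1 : IsScalarTower B (B ⊗[k] X.A1) L.M :=
  ⟨fun b s m => by
    induction s using TensorProduct.induction_on with
    | zero => rw [smul_zero, zero_smul (B ⊗[k] X.A1) m, smul_zero]
    | tmul c a => simp [TensorProduct.smul_tmul', mul_smul]
    | add x y hx hy => rw [smul_add, add_smul, add_smul, smul_add, hx, hy]⟩

/-- `M0` as a `B ⊗ A0`-submodule -/
def M0' : Submodule (B ⊗[k] X.A0) L.M where
  carrier := L.M0
  add_mem' := L.M0.add_mem
  zero_mem' := L.M0.zero_mem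
  smul_mem' s m hm := by
    induction s using TensorProduct.induction_on with
    | zero => rw [zero_smul (B ⊗[k] X.A0) m]; exact L.M0.zero_mem
    | tmul c a => exact L.M0.smul_mem _ (L.smul0 _ a.2 _ hm)
    | add x y hx hy => rw [add_smul]; exact L.M0.add_mem hx hy

/-- `M1` as a `B ⊗ A1`-submodule -/
def M1' : Submodule (B ⊗[k] X.A1) L.M where
  carrier := L.M1
  add_mem' := L.M1.add_mem
  zero_mem' := L.M1.zero_mem
  smul_mem' s m hm := by
    induction s using TensorProduct.induction_on with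
    | zero => rw [zero_smul (B ⊗[k] X.A1) m]; exact L.M1.zero_mem
    | tmul c a => exact L.M1.smul_mem _ (L.smul1 _ a.2 _ hm)
    | add x y hx hy => rw [add_smul]; exact L.M1.add_mem hx hy

@[simp] theorem mem_M0' (m : L.M) : m ∈ L.M0' ↔ m ∈ L.M0 := Iff.rfl
@[simp] theorem mem_M1' (m : L.M) : m ∈ L.M1' ↔ m ∈ L.M1 := Iff.rfl

/-- `L` is a line bundle on `C_B` -/
structure IsLine : Prop where
  inv0 : Module.Invertible (B ⊗[k] X.A0) L.M0'
  inv1 : Module.Invertible (B ⊗[k] X.A1) L.M1'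

/-- multiplication by `t` -/
noncomputable def τ : L.M ≃ₗ[B] L.M where
  toFun m := (X.t : X.A) • m
  invFun m := ((X.t⁻¹ : X.Aˣ) : X.A) • m
  map_add' := smul_add _
  map_smul' b m := (smul_comm b (X.t : X.A) m).symm
  left_inv m := by
    show ((X.t⁻¹ : X.Aˣ) : X.A) • ((X.t : X.A) • m) = m
    rw [← mul_smul, Units.inv_mul, one_smul]
  right_inv m := by
    show (X.t : X.A) • (((X.t⁻¹ : X.Aˣ) : X.A) • m) = m
    rw [← mul_smul, Units.mul_inv, one_smul]

@[simp] theorem τ_apply (m : L.M) : L.τ m = (X.t : X.A) • m := rfl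
@[simp] theorem τ_symm_apply (m : L.M) : L.τ.symm m = ((X.t⁻¹ : X.Aˣ) : X.A) • m := rfl

/-- no cohomology -/
def Acyclic : Prop := IsCompl L.M0 L.M1

/-- `W = M0 ∩ t M1` -/
noncomputable def W : Submodule B L.M := L.M0 ⊓ L.M1.map (L.τ : L.M →ₗ[B] L.M)

/-- isomorphism of line data -/
structure Iso (L L' : PreLD X B) where
  e : L.M ≃ₗ[B] L'.M
  smul : ∀ (a : X.A) (m : L.M), e (a • m) = a • e m
  map0 : L.M0.map (e : L.M →ₗ[B] L'.M) = L'.M0
  map1 : L.M1.map (e : L.M →ₗ[B] L'.M) = L'.M1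

/-- a rigidification along `ε` -/
structure Rig (L : PreLD X B) where
  lam : L.M0 →ₗ[B] B
  smul : ∀ (a : X.A0) (m : L.M0),
    lam ⟨(a : X.A) • (m : L.M), L.smul0 _ a.2 _ m.2⟩ = algebraMap k B (X.ev a) * lam m
  surj : Function.Surjective lam

end PreLD

/-- choice of the functionals `w ↦ λ (p0 (c i • w))`, `c 0 = 1`
(`p0 : M → M0` the projection along `M1`) -/
structure Idx {k : Type u} [Field k] (X : TwoChart k) where
  c : Fin X.d → X.A
  c_zero : c ⟨0, X.d_pos⟩ = 1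

/-- a `B`-point of the matrix chart -/
structure MPt {k : Type u} [Field k] (X : TwoChart k) (ι : Idx X) (B : Type u) [CommRing B]
    [Algebra k B] where
  Φ : X.A →ₐ[k] Matrix (Fin X.d) (Fin X.d) (LaurentPolynomial B)
  Φ_t : Φ (X.t : X.A) = Matrix.scalar (Fin X.d) (LaurentPolynomial.T 1)
  Φ0 : ∀ a ∈ X.A0, ∀ i j, ∀ n : ℤ, n < 0 → (Φ a i j).coeff n = 0
  Φ1 : ∀ a ∈ X.A1, ∀ i j, ∀ n : ℤ, 0 < n → (Φ a i j).coeff n = 0
  row : ∀ (a : X.A0) (j : Fin X.d), (Φ (a : X.A) ⟨0, X.d_pos⟩ j).coeff 0 =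
    if j = ⟨0, X.d_pos⟩ then algebraMap k B (X.ev a) else 0
  norm : ∀ i j : Fin X.d, (Φ (ι.c i) ⟨0, X.d_pos⟩ j).coeff 0 = if i = j then 1 else 0

end Fermat.Agent.JPC
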