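import Fermat.Agent.JPC.Base

set_option autoImplicit false

/-! S25: the chart condition, twists, statements of the algebraic blocks. -/

universe u

open TensorProduct Polynomial

namespace Fermat.Agent.JPC

variable {k : Type u} [Field k] {X : TwoChart k}

namespace PreLD

variable {B : Type u} [CommRing B] [Algebra k B] {L : PreLD X B}

/-- projection `M → M0` along `M1` -/
noncomputable def Acyclic.p0 (h : L.Acyclic) : L.M →ₗ[B] L.M0 :=
  Submodule.projectionOnto L.M0 L.M1 h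

/-- the functional `m ↦ λ (p0 (c • m))` -/
noncomputable def Acyclic.fn (h : L.Acyclic) (r : L.Rig) (c : X.A) : L.M →ₗ[B] B :=
  r.lam ∘ₗ h.p0 ∘ₗ L.actA c

/-- the coordinates of `W` -/
noncomputable def Acyclic.coord (h : L.Acyclic) (r : L.Rig) (ι : Idx X) :
    L.W →ₗ[B] (Fin X.d → B) :=
  LinearMap.pi fun i => h.fn r (ι.c i) ∘ₗ L.W.subtype

/-- `L` lies in the chart `ι` -/
def InChart (ι : Idx X) (L : PreLD X B) : Prop :=
  ∃ (h : L.Acyclic) (r : L.Rig), Function.Bijective (h.coord r ι)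

/-- twist by `n · ∞` : `M1 ↦ tⁿ M1` -/
noncomputable def twistInf (L : PreLD X B) (n : ℕ) : PreLD X B where
  M := L.M
  M0 := L.M0
  M1 := L.M1.map (L.actA ((X.t : X.A) ^ n))
  smul0 := L.smul0
  smul1 := by
    rintro a ha _ ⟨m, hm, rfl⟩
    refine ⟨a • m, L.smul1 a ha m hm, ?_⟩
    simp only [actA_apply]
    exact smul_comm _ _ _
  ex0 := L.ex0
  ex1 := by
    intro m
    obtain ⟨p, hp⟩ := L.ex1 m
    refine ⟨p, _, L.tn_mem1 hp n, ?_⟩
    simp only [actA_apply, ← mul_smul]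
    rw [← mul_assoc, ← mul_pow, Units.mul_inv, one_pow, one_mul]

/-- `B`-span of the products `a • m`, `a ∈ S`, `m ∈ N` -/
def mulSub (L : PreLD X B) (S : Set X.A) (N : Submodule B L.M) : Submodule B L.M :=
  Submodule.span B {x | ∃ a ∈ S, ∃ m ∈ N, x = a • m}

theorem smul_mem_mulSub (L : PreLD X B) {S S' : Set X.A} {N N' : Submodule B L.M} (b : X.A)
    (hS : ∀ a ∈ S, ∀ m ∈ N, b • a • m ∈ L.mulSub S' N') {x : L.M} (hx : x ∈ L.mulSub S N) :
    b • x ∈ L.mulSub S' N' := by
  have : L.mulSub S N ≤ (L.mulSub S' N').comap (L.actA b) := by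
    refine Submodule.span_le.mpr ?_
    rintro _ ⟨a, ha, m, hm, rfl⟩
    exact hS a ha m hm
  exact this hx

/-- twist by `-y`, `y` a `k`-point of `U ∩ V` -/
noncomputable def twistPt (L : PreLD X B) (y : X.A →ₐ[k] k) : PreLD X B :=
  let N : Submodule B L.M := L.mulSub {a | y a = 0} ⊤
  have hN : ∀ (b : X.A) {x : L.M}, x ∈ N → b • x ∈ N := fun b x hx =>
    L.smul_mem_mulSub b (fun a ha m _ => Submodule.subset_span
      ⟨a, ha, b • m, Submodule.mem_top, smul_comm _ _ _⟩) hx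
  letI : Module X.A N :=
    { smul := fun b x => ⟨b • (x : L.M), hN b x.2⟩
      one_smul := fun x => Subtype.ext (one_smul _ _)
      mul_smul := fun a b x => Subtype.ext (mul_smul _ _ _)
      smul_zero := fun a => Subtype.ext (smul_zero _)
      smul_add := fun a x y => Subtype.ext (smul_add _ _ _)
      add_smul := fun a b x => Subtype.ext (add_smul _ _ _)
      zero_smul := fun x => Subtype.ext (zero_smul _ _) }
  have hsm : ∀ (b : X.A) (x : N), ((b • x : N) : L.M) = b • (x : L.M) := fun _ _ => rfl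
  { M := N
    modk := inferInstance
    modB := inferInstance
    modA := inferInstance
    kB := inferInstance
    kA := ⟨fun c a x => Subtype.ext (by
      rw [hsm]
      exact smul_assoc c a (x : L.M))⟩
    comm := ⟨fun b a x => Subtype.ext (by
      exact smul_comm b a (x : L.M))⟩
    M0 := (L.mulSub {a | a ∈ X.A0 ∧ y a = 0} L.M0).comap N.subtype
    M1 := (L.mulSub {a | a ∈ X.A1 ∧ y a = 0} L.M1).comap N.subtype
    smul0 := fun b hb x hx => L.smul_mem_mulSub b (fun a ha m hm => Submodule.subset_span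
      ⟨a, ha, b • m, L.smul0 b hb m hm, smul_comm _ _ _⟩) hx
    smul1 := fun b hb x hx => L.smul_mem_mulSub b (fun a ha m hm => Submodule.subset_span
      ⟨a, ha, b • m, L.smul1 b hb m hm, smul_comm _ _ _⟩) hx
    ex0 := fun x => by
      obtain ⟨x, hx⟩ := x
      show ∃ n : ℕ, ((X.t : X.A) ^ n) • x ∈ L.mulSub {a | a ∈ X.A0 ∧ y a = 0} L.M0
      have hmono : ∀ (n : ℕ) (z : L.M), z ∈ L.mulSub {a | a ∈ X.A0 ∧ y a = 0} L.M0 →
          ((X.t : X.A) ^ n) • z ∈ L.mulSub {a | a ∈ X.A0 ∧ y a = 0} L.M0 := fun n z hz =>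
        L.smul_mem_mulSub _ (fun a ha m hm => Submodule.subset_span
          ⟨a, ha, _, L.tn_mem0 hm n, smul_comm _ _ _⟩) hz
      refine Submodule.span_induction (p := fun x _ => ∃ n : ℕ, ((X.t : X.A) ^ n) • x ∈
        L.mulSub {a | a ∈ X.A0 ∧ y a = 0} L.M0) ?_ ?_ ?_ ?_ hx
      · rintro _ ⟨a, ha, m, -, rfl⟩
        obtain ⟨p, hp⟩ := X.ex0 a
        obtain ⟨q, hq⟩ := L.ex0 m
        refine ⟨p + q, Submodule.subset_span ⟨(X.t : X.A) ^ p * a, ⟨hp, ?_⟩,
          ((X.t : X.A) ^ q) • m, hq, ?_⟩⟩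
        · rw [map_mul, ha, mul_zero]
        · rw [← mul_smul, ← mul_smul, pow_add]
          congr 1
          ring
      · exact ⟨0, by rw [smul_zero]; exact Submodule.zero_mem _⟩
      · rintro x z - - ⟨n, hn⟩ ⟨p, hp⟩
        refine ⟨n + p, ?_⟩
        rw [smul_add]
        refine Submodule.add_mem _ ?_ ?_
        · rw [add_comm, pow_add, mul_smul]
          exact hmono p _ hn
        · rw [pow_add, mul_smul]
          exact hmono n _ hp
      · rintro b x - ⟨n, hn⟩
        refine ⟨n, ?_⟩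
        rw [← smul_comm b]
        exact Submodule.smul_mem _ _ hn
    ex1 := fun x => by
      obtain ⟨x, hx⟩ := x
      show ∃ n : ℕ, (((X.t⁻¹ : X.Aˣ) : X.A) ^ n) • x ∈ L.mulSub {a | a ∈ X.A1 ∧ y a = 0} L.M1
      have hmono : ∀ (n : ℕ) (z : L.M), z ∈ L.mulSub {a | a ∈ X.A1 ∧ y a = 0} L.M1 →
          (((X.t⁻¹ : X.Aˣ) : X.A) ^ n) • z ∈ L.mulSub {a | a ∈ X.A1 ∧ y a = 0} L.M1 := fun n z hz =>
        L.smul_mem_mulSub _ (fun a ha m hm => Submodule.subset_span
          ⟨a, ha, _, L.tn_mem1 hm n, smul_comm _ _ _⟩) hz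
      refine Submodule.span_induction (p := fun x _ => ∃ n : ℕ, (((X.t⁻¹ : X.Aˣ) : X.A) ^ n) • x ∈
        L.mulSub {a | a ∈ X.A1 ∧ y a = 0} L.M1) ?_ ?_ ?_ ?_ hx
      · rintro _ ⟨a, ha, m, -, rfl⟩
        obtain ⟨p, hp⟩ := X.ex1 a
        obtain ⟨q, hq⟩ := L.ex1 m
        refine ⟨p + q, Submodule.subset_span ⟨((X.t⁻¹ : X.Aˣ) : X.A) ^ p * a, ⟨hp, ?_⟩,
          (((X.t⁻¹ : X.Aˣ) : X.A) ^ q) • m, hq, ?_⟩⟩
        · rw [map_mul, ha, mul_zero]
        · rw [← mul_smul, ← mul_smul, pow_add]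
          congr 1
          ring
      · exact ⟨0, by rw [smul_zero]; exact Submodule.zero_mem _⟩
      · rintro x z - - ⟨n, hn⟩ ⟨p, hp⟩
        refine ⟨n + p, ?_⟩
        rw [smul_add]
        refine Submodule.add_mem _ ?_ ?_
        · rw [add_comm, pow_add, mul_smul]
          exact hmono p _ hn
        · rw [pow_add, mul_smul]
          exact hmono n _ hp
      · rintro b x - ⟨n, hn⟩
        refine ⟨n, ?_⟩
        rw [← smul_comm b]
        exact Submodule.smul_mem _ _ hn }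

/-- twist by `-y₁ - … - y_r` -/
noncomputable def twistPts (L : PreLD X B) : List (X.A →ₐ[k] k) → PreLD X B
  | [] => L
  | y :: l => (L.twistPts l).twistPt y

end PreLD

/-! ### statements -/

variable (X)

/-- block F: the chart condition is open, defined by an ideal, compatible with base change -/
def FStmt : Prop :=
  ∀ (B : Type u) [CommRing B] [Algebra k B] (L : PreLD X B), L.IsLine → Nonempty L.Rig →
    ∀ ι : Idx X, ∃ I : Ideal B, ∀ (B' : Type u) [CommRing B'] [Algebra k B'] [Algebra B B']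
      [IsScalarTower k B B'], (L.baseChange B').InChart ι ↔ I.map (algebraMap B B') = ⊤

/-- block I: over an algebraically closed field some twist lies in some chart -/
def CoverStmt : Prop :=
  ∀ (K : Type u) [Field K] [IsAlgClosed K] [Algebra k K] (L : PreLD X K), L.IsLine →
    ∃ (n : ℕ) (l : List (X.A →ₐ[k] k)) (ι : Idx X), ((L.twistInf n).twistPts l).InChart ι

/-- block K: lifting along square zero extensions -/
def LiftStmt : Prop :=
  ∀ (B : Type u) [CommRing B] [Algebra k B] (I : Ideal B), I ^ 2 = ⊥ →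
    ∀ L₀ : PreLD X (B ⧸ I), L₀.IsLine → Nonempty L₀.Rig →
      ∃ L : PreLD X B, L.IsLine ∧ Nonempty L.Rig ∧ Nonempty ((L.baseChange (B ⧸ I)).Iso L₀)

end Fermat.Agent.JPC
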