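import Fermat.Agent.JPC.Defs

set_option autoImplicit false

/-! S25: base change of line data. -/

universe u

open TensorProduct Polynomial

namespace Fermat.Agent.JPC

namespace PreLD

variable {k : Type u} [Field k] {X : TwoChart k} {B : Type u} [CommRing B] [Algebra k B]

/-- the action of `A` on `M` by `B`-linear endomorphisms -/
def actA (L : PreLD X B) : X.A →+* Module.End B L.M where
  toFun a :=
    { toFun := fun m => a • m
      map_add' := smul_add a
      map_smul' := fun b m => (smul_comm b a m).symm }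
  map_one' := by ext m; exact one_smul _ m
  map_mul' a b := by ext m; exact mul_smul a b m
  map_zero' := by ext m; exact zero_smul _ m
  map_add' a b := by ext m; exact add_smul a b m

@[simp] theorem actA_apply (L : PreLD X B) (a : X.A) (m : L.M) : L.actA a m = a • m := rfl

theorem tn_mem0 (L : PreLD X B) {m : L.M} (hm : m ∈ L.M0) (n : ℕ) :
    ((X.t : X.A) ^ n) • m ∈ L.M0 :=
  L.smul0 _ (X.A0.pow_mem X.t_mem n) m hm

theorem tn_mem1 (L : PreLD X B) {m : L.M} (hm : m ∈ L.M1) (n : ℕ) :
    (((X.t⁻¹ : X.Aˣ) : X.A) ^ n) • m ∈ L.M1 :=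
  L.smul1 _ (X.A1.pow_mem X.tinv_mem n) m hm

theorem exFin0 (L : PreLD X B) (s : Finset L.M) : ∃ n : ℕ, ∀ m ∈ s, ((X.t : X.A) ^ n) • m ∈ L.M0 := by
  classical
  induction s using Finset.induction_on with
  | empty => exact ⟨0, by simp⟩
  | insert a s ha ih =>
    obtain ⟨n, hn⟩ := ih
    obtain ⟨p, hp⟩ := L.ex0 a
    refine ⟨n + p, fun m hm => ?_⟩
    rcases Finset.mem_insert.mp hm with rfl | hm
    · rw [pow_add, mul_smul]; exact L.tn_mem0 hp n
    · rw [add_comm, pow_add, mul_smul]; exact L.tn_mem0 (hn m hm) p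

theorem exFin1 (L : PreLD X B) (s : Finset L.M) :
    ∃ n : ℕ, ∀ m ∈ s, (((X.t⁻¹ : X.Aˣ) : X.A) ^ n) • m ∈ L.M1 := by
  classical
  induction s using Finset.induction_on with
  | empty => exact ⟨0, by simp⟩
  | insert a s ha ih =>
    obtain ⟨n, hn⟩ := ih
    obtain ⟨p, hp⟩ := L.ex1 a
    refine ⟨n + p, fun m hm => ?_⟩
    rcases Finset.mem_insert.mp hm with rfl | hm
    · rw [pow_add, mul_smul]; exact L.tn_mem1 hp n
    · rw [add_comm, pow_add, mul_smul]; exact L.tn_mem1 (hn m hm) p

section BC

variable (L : PreLD X B) (B' : Type u) [CommRing B'] [Algebra k B'] [Algebra B B']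
  [IsScalarTower k B B']

/-- the `A`-module structure on `B' ⊗[B] M` -/
@[reducible] noncomputable def bcModA : Module X.A (B' ⊗[B] L.M) := Module.compHom _
    (((Module.End.baseChangeHom B B' L.M).toRingHom).comp L.actA)

/-- base change of line data -/
noncomputable def baseChange : PreLD X B' :=
  letI modA : Module X.A (B' ⊗[B] L.M) := L.bcModA B'
  have hsm : ∀ (a : X.A) (x : B' ⊗[B] L.M), a • x = (L.actA a).baseChange B' x := fun _ _ => rfl
  have smul0 : ∀ a ∈ X.A0, ∀ m ∈ L.M0.baseChange B', a • m ∈ L.M0.baseChange B' := fun a ha m hm => by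
      rw [hsm]
      have : L.M0.baseChange B' ≤ (L.M0.baseChange B').comap ((L.actA a).baseChange B') := by
        rw [Submodule.baseChange_eq_span, Submodule.span_le]
        rintro _ ⟨m, hm, rfl⟩
        rw [← Submodule.baseChange_eq_span]
        exact Submodule.tmul_mem_baseChange_of_mem _ (L.smul0 a ha m hm)
      exact this hm
  have smul1 : ∀ a ∈ X.A1, ∀ m ∈ L.M1.baseChange B', a • m ∈ L.M1.baseChange B' := fun a ha m hm => by
      rw [hsm]
      have : L.M1.baseChange B' ≤ (L.M1.baseChange B').comap ((L.actA a).baseChange B') := by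
        rw [Submodule.baseChange_eq_span, Submodule.span_le]
        rintro _ ⟨m, hm, rfl⟩
        rw [← Submodule.baseChange_eq_span]
        exact Submodule.tmul_mem_baseChange_of_mem _ (L.smul1 a ha m hm)
      exact this hm
  { M := B' ⊗[B] L.M
    modA := modA
    kA := ⟨fun c a m => by
      have h : L.actA (c • a) = (algebraMap k B c) • L.actA a := by
        ext m
        show (c • a) • m = (algebraMap k B c) • a • m
        rw [smul_assoc, algebraMap_smul]
      show (L.actA (c • a)).baseChange B' m = c • (L.actA a).baseChange B' m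
      rw [h, LinearMap.baseChange_smul, LinearMap.smul_apply, algebraMap_smul]⟩
    comm := ⟨fun b a m => by
      rw [hsm, hsm, map_smul]⟩
    M0 := L.M0.baseChange B'
    M1 := L.M1.baseChange B'
    smul0 := smul0
    smul1 := smul1
    ex0 := fun m => by
      induction m using TensorProduct.induction_on with
      | zero => exact ⟨0, by rw [smul_zero]; exact Submodule.zero_mem _⟩
      | tmul b m =>
        obtain ⟨n, hn⟩ := L.ex0 m
        exact ⟨n, Submodule.tmul_mem_baseChange_of_mem _ hn⟩
      | add x y hx hy =>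
        obtain ⟨n, hn⟩ := hx
        obtain ⟨p, hp⟩ := hy
        refine ⟨n + p, ?_⟩
        rw [smul_add]
        refine Submodule.add_mem _ ?_ ?_
        · rw [add_comm, pow_add, mul_smul]
          exact smul0 _ (X.A0.pow_mem X.t_mem p) _ hn
        · rw [pow_add, mul_smul]
          exact smul0 _ (X.A0.pow_mem X.t_mem n) _ hp
    ex1 := fun m => by
      induction m using TensorProduct.induction_on with
      | zero => exact ⟨0, by rw [smul_zero]; exact Submodule.zero_mem _⟩
      | tmul b m =>
        obtain ⟨n, hn⟩ := L.ex1 m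
        exact ⟨n, Submodule.tmul_mem_baseChange_of_mem _ hn⟩
      | add x y hx hy =>
        obtain ⟨n, hn⟩ := hx
        obtain ⟨p, hp⟩ := hy
        refine ⟨n + p, ?_⟩
        rw [smul_add]
        refine Submodule.add_mem _ ?_ ?_
        · rw [add_comm, pow_add, mul_smul]
          exact smul1 _ (X.A1.pow_mem X.tinv_mem p) _ hn
        · rw [pow_add, mul_smul]
          exact smul1 _ (X.A1.pow_mem X.tinv_mem n) _ hp }

@[simp] theorem baseChange_M : (L.baseChange B').M = (B' ⊗[B] L.M) := rfl

/-- the canonical map `M → M'` -/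
noncomputable def toBC (m : L.M) : (L.baseChange B').M := (1 : B') ⊗ₜ[B] m

theorem baseChange_smul (a : X.A) (b : B') (m : L.M) :
    a • (show (L.baseChange B').M from b ⊗ₜ[B] m) = (show (L.baseChange B').M from b ⊗ₜ[B] (a • m)) := rfl

theorem baseChange_M0 : (L.baseChange B').M0 = L.M0.baseChange B' := rfl
theorem baseChange_M1 : (L.baseChange B').M1 = L.M1.baseChange B' := rfl

end BC

end PreLD

end Fermat.Agent.JPC
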