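import Fermat.Agent.JPC.LDchart

set_option autoImplicit false

/-! S25, block G: line data in a chart come from matrix points. -/

universe u

open TensorProduct Polynomial

namespace Fermat.Agent.JPC

variable {k : Type u} [Field k] {X : TwoChart k} {ι : Idx X} {B : Type u} [CommRing B] [Algebra k B]

theorem MPt.exists_shift {d : ℕ} (v : Fin d → LaurentPolynomial B) (hv : v ∈ MPt.N0 d B) :
    ∃ v' ∈ MPt.N0 d B, v = (fun i => LaurentPolynomial.C ((v i).coeff 0)) +
      (LaurentPolynomial.T 1 : LaurentPolynomial B) • v' := by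
  refine ⟨fun i => LaurentPolynomial.T (-1) * (v i - LaurentPolynomial.C ((v i).coeff 0)), ?_, ?_⟩
  · intro i n hn
    rw [lcoeff_T_mul, AddMonoidAlgebra.coeff_sub, Finsupp.sub_apply, LaurentPolynomial.C_apply]
    by_cases h : n - -1 = 0
    · rw [if_pos h, h, sub_self]
    · rw [if_neg h, sub_zero]
      exact hv i _ (by omega)
  · funext i
    show v i = LaurentPolynomial.C ((v i).coeff 0) + LaurentPolynomial.T 1 *
      (LaurentPolynomial.T (-1) * (v i - LaurentPolynomial.C ((v i).coeff 0)))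
    rw [← mul_assoc, ← LaurentPolynomial.T_add]
    simp

namespace PreLD

variable (L : PreLD X B)

/-- powers of `t` -/
noncomputable def tz (X : TwoChart k) (n : ℤ) : X.A := ((X.t ^ n : X.Aˣ) : X.A)

theorem tz_zero : tz X 0 = 1 := by simp [tz]
theorem tz_one : tz X 1 = X.t := by simp [tz]
theorem tz_neg_one : tz X (-1) = ((X.t⁻¹ : X.Aˣ) : X.A) := by simp [tz]
theorem tz_add (m n : ℤ) : tz X (m + n) = tz X m * tz X n := by
  rw [tz, tz, tz, zpow_add, Units.val_mul]
theorem tz_nat (n : ℕ) : tz X n = (X.t : X.A) ^ n := by simp [tz]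
theorem tz_neg_nat (n : ℕ) : tz X (-(n : ℤ)) = ((X.t⁻¹ : X.Aˣ) : X.A) ^ n := by simp [tz]

/-- `B[T;T⁻¹] → End_B(M)` -/
noncomputable def θ : LaurentPolynomial B →ₐ[B] Module.End B L.M :=
  AddMonoidAlgebra.lift B (Module.End B L.M) ℤ
    { toFun := fun n => L.actA (tz X n.toAdd)
      map_one' := by
        rw [toAdd_one, tz_zero, map_one]
      map_mul' := fun m n => by
        rw [toAdd_mul, tz_add, map_mul] }

theorem θ_single (n : ℤ) (b : B) : L.θ (.single n b) = b • L.actA (tz X n) :=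
  AddMonoidAlgebra.lift_single _ _ _

/-- the `B[T;T⁻¹]`-module structure -/
@[reducible] noncomputable def modT : Module (LaurentPolynomial B) L.M :=
  Module.compHom _ (L.θ : LaurentPolynomial B →+* Module.End B L.M)

attribute [local instance] modT

theorem T_smul_def (f : LaurentPolynomial B) (m : L.M) : f • m = L.θ f m := rfl

theorem single_smul (n : ℤ) (b : B) (m : L.M) :
    (AddMonoidAlgebra.single n b : LaurentPolynomial B) • m = b • tz X n • m := by
  rw [T_smul_def, θ_single]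
  rfl

theorem Tn_smul (n : ℤ) (m : L.M) : (LaurentPolynomial.T n : LaurentPolynomial B) • m = tz X n • m := by
  rw [LaurentPolynomial.T, single_smul, one_smul]

instance towerT : IsScalarTower B (LaurentPolynomial B) L.M :=
  ⟨fun b f m => by
    rw [T_smul_def, T_smul_def, map_smul]
    rfl⟩

instance commT : SMulCommClass X.A (LaurentPolynomial B) L.M :=
  ⟨fun a f m => by
    induction f using AddMonoidAlgebra.induction_linear with
    | zero => rw [zero_smul, zero_smul, smul_zero]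
    | add f g hf hg => rw [add_smul, add_smul, smul_add, hf, hg]
    | single n b =>
      rw [single_smul, single_smul, ← smul_comm b a, ← mul_smul a, mul_comm a, mul_smul]⟩

variable {L}

theorem W_le_M0 : L.W ≤ L.M0 := inf_le_left

theorem mem_W_iff (m : L.M) : m ∈ L.W ↔ m ∈ L.M0 ∧ tz X (-1) • m ∈ L.M1 := by
  constructor
  · rintro ⟨h0, w, hw, rfl⟩
    refine ⟨h0, ?_⟩
    show tz X (-1) • ((X.t : X.A) • w) ∈ L.M1
    rwa [tz_neg_one, ← mul_smul, Units.inv_mul, one_smul]
  · rintro ⟨h0, h1⟩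
    refine ⟨h0, _, h1, ?_⟩
    show (X.t : X.A) • (tz X (-1) • m) = m
    rw [tz_neg_one, ← mul_smul, Units.mul_inv, one_smul]

theorem tinv_mem1 {m : L.M} (hm : m ∈ L.M1) : tz X (-1) • m ∈ L.M1 := by
  rw [tz_neg_one]
  exact L.smul1 _ X.tinv_mem m hm

theorem t_mem0 {m : L.M} (hm : m ∈ L.M0) : tz X 1 • m ∈ L.M0 := by
  rw [tz_one]
  exact L.smul0 _ X.t_mem m hm

theorem tz_smul_smul (m n : ℤ) (x : L.M) : tz X m • tz X n • x = tz X (m + n) • x := by
  rw [← mul_smul, tz_add]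

theorem Acyclic.eq_zero (h : L.Acyclic) {m : L.M} (h0 : m ∈ L.M0) (h1 : m ∈ L.M1) : m = 0 :=
  Submodule.disjoint_def.mp h.disjoint m h0 h1

/-- `M0 = W ⊕ t M0` -/
theorem Acyclic.exists_decomp (h : L.Acyclic) {m : L.M} (hm : m ∈ L.M0) :
    ∃ w ∈ L.W, ∃ m' ∈ L.M0, m = w + tz X 1 • m' := by
  have htop : tz X (-1) • m ∈ L.M0 ⊔ L.M1 := by
    rw [h.sup_eq_top]; exact Submodule.mem_top
  obtain ⟨a, ha, b, hb, hab⟩ := Submodule.mem_sup.mp htop
  have h2 : m = tz X 1 • b + tz X 1 • a := by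
    rw [← smul_add, add_comm b a, hab, tz_smul_smul]
    simp [tz_zero]
  refine ⟨tz X 1 • b, ?_, a, ha, h2⟩
  rw [mem_W_iff]
  constructor
  · have : tz X 1 • b = m - tz X 1 • a := by rw [h2]; simp
    rw [this]
    exact L.M0.sub_mem hm (t_mem0 ha)
  · rw [tz_smul_smul]
    simpa [tz_zero] using hb

theorem Acyclic.W_inter (h : L.Acyclic) {w m : L.M} (hw : w ∈ L.W) (hm : m ∈ L.M0)
    (e : w + tz X 1 • m = 0) : w = 0 := by
  have h1 : tz X (-1) • w = - m := by
    have : tz X (-1) • (w + tz X 1 • m) = 0 := by rw [e, smul_zero]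
    rw [smul_add, tz_smul_smul] at this
    simp only [neg_add_cancel, tz_zero, one_smul] at this
    exact eq_neg_of_add_eq_zero_left this
  have h2 : tz X (-1) • w = 0 := by
    refine h.eq_zero ?_ ((mem_W_iff w).mp hw).2
    rw [h1]
    exact L.M0.neg_mem hm
  have h3 : tz X 1 • tz X (-1) • w = 0 := by rw [h2, smul_zero]
  rw [tz_smul_smul] at h3
  simpa [tz_zero] using h3

/-- a subset containing `W` and stable under `B[T;T⁻¹]` is everything -/
theorem Acyclic.span_top (h : L.Acyclic) (S : Submodule (LaurentPolynomial B) L.M)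
    (hW : ∀ w ∈ L.W, w ∈ S) : S = ⊤ := by
  have ht : ∀ (n : ℤ) {m : L.M}, m ∈ S → tz X n • m ∈ S := fun n m hm => by
    rw [← Tn_smul]
    exact S.smul_mem _ hm
  have key : ∀ (n : ℕ) (m : L.M), m ∈ L.M0 → tz X (-(n : ℤ)) • m ∈ L.M1 → m ∈ S := by
    intro n
    induction n with
    | zero =>
      intro m h0 h1
      have : m = 0 := h.eq_zero h0 (by simpa [tz_zero] using h1)
      rw [this]
      exact S.zero_mem
    | succ n ih =>
      intro m h0 h1
      obtain ⟨w, hw, m', hm', e⟩ := h.exists_decomp h0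
      rw [e]
      refine S.add_mem (hW w hw) (ht 1 (ih m' hm' ?_))
      have h2 : tz X (-(n : ℤ)) • m' = tz X (-((n + 1 : ℕ) : ℤ)) • m - tz X (-(n : ℤ)) • tz X (-1) • w := by
        rw [tz_smul_smul, e, smul_add, tz_smul_smul]
        push_cast
        rw [show -((n : ℤ) + 1) = -(n : ℤ) + -1 by ring, show -(n : ℤ) + -1 + 1 = -(n : ℤ) by ring]
        abel
      rw [h2]
      refine L.M1.sub_mem h1 ?_
      rw [tz_neg_nat]
      exact L.tn_mem1 ((mem_W_iff w).mp hw).2 n
  rw [Submodule.eq_top_iff']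
  intro m
  obtain ⟨n, hn⟩ := L.ex0 m
  obtain ⟨p, hp⟩ := L.ex1 ((X.t : X.A) ^ n • m)
  have h1 : (X.t : X.A) ^ n • m ∈ S := key p _ hn (by rw [tz_neg_nat]; exact hp)
  have h2 : m = tz X (-(n : ℤ)) • ((X.t : X.A) ^ n • m) := by
    rw [← tz_nat, tz_smul_smul]
    simp [tz_zero]
  rw [h2]
  exact ht _ h1

section Basis

variable (h : L.Acyclic) (r : L.Rig) (hb : Function.Bijective (h.coord r ι))

/-- the basis vectors of `W` -/
noncomputable def Acyclic.wv (i : Fin X.d) : L.M :=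
  ((LinearEquiv.ofBijective (h.coord r ι) hb).symm (Pi.single i 1) : L.W)

theorem Acyclic.wv_mem (i : Fin X.d) : h.wv r hb i ∈ L.W := Subtype.property _

theorem Acyclic.coord_wv (i : Fin X.d) : h.coord r ι ⟨h.wv r hb i, h.wv_mem r hb i⟩ = Pi.single i 1 :=
  (LinearEquiv.ofBijective (h.coord r ι) hb).apply_symm_apply _

/-- `Ψ` -/
noncomputable def Acyclic.Ψ : (Fin X.d → LaurentPolynomial B) →ₗ[LaurentPolynomial B] L.M :=
  Fintype.linearCombination (LaurentPolynomial B) (h.wv r hb)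

theorem Acyclic.Ψ_apply (v : Fin X.d → LaurentPolynomial B) :
    h.Ψ r hb v = ∑ i, v i • h.wv r hb i := rfl

/-- constants -/
theorem Acyclic.Ψ_const (b : Fin X.d → B) :
    h.Ψ r hb (fun i => LaurentPolynomial.C (b i)) =
      ((LinearEquiv.ofBijective (h.coord r ι) hb).symm b : L.W) := by
  have e : b = ∑ i, b i • (Pi.single i (1 : B) : Fin X.d → B) := by
    funext j
    simp [Finset.sum_apply, Pi.single_apply]
  conv_rhs => rw [e]
  rw [map_sum, Acyclic.Ψ_apply, Submodule.coe_sum]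
  refine Finset.sum_congr rfl fun i _ => ?_
  rw [map_smul, ← LaurentPolynomial.single_eq_C, single_smul, tz_zero, one_smul]
  rfl

theorem Acyclic.Ψ_const_mem (b : Fin X.d → B) :
    h.Ψ r hb (fun i => LaurentPolynomial.C (b i)) ∈ L.W := by
  rw [Acyclic.Ψ_const]
  exact Subtype.property _

theorem Acyclic.Ψ_mem0 (v : Fin X.d → LaurentPolynomial B) (hv : v ∈ MPt.N0 X.d B) :
    h.Ψ r hb v ∈ L.M0 := by
  rw [Acyclic.Ψ_apply]
  refine L.M0.sum_mem fun i _ => ?_
  rw [T_smul_def, ← AddMonoidAlgebra.sum_coeff_single (v i), Finsupp.sum, map_sum, LinearMap.sum_apply]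
  refine L.M0.sum_mem fun n hn => ?_
  rw [← T_smul_def, single_smul]
  refine L.M0.smul_mem _ ?_
  have hn0 : 0 ≤ n := by
    by_contra hlt
    exact (Finsupp.mem_support_iff.mp hn) (hv i n (by omega))
  obtain ⟨p, rfl⟩ := Int.eq_ofNat_of_zero_le hn0
  rw [tz_nat]
  exact L.tn_mem0 (W_le_M0 (h.wv_mem r hb i)) p

theorem Acyclic.Ψ_mem1 (v : Fin X.d → LaurentPolynomial B) (hv : v ∈ MPt.N1 X.d B) :
    h.Ψ r hb v ∈ L.M1 := by
  rw [Acyclic.Ψ_apply]
  refine L.M1.sum_mem fun i _ => ?_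
  rw [T_smul_def, ← AddMonoidAlgebra.sum_coeff_single (v i), Finsupp.sum, map_sum, LinearMap.sum_apply]
  refine L.M1.sum_mem fun n hn => ?_
  rw [← T_smul_def, single_smul]
  refine L.M1.smul_mem _ ?_
  have hn0 : n < 0 := by
    by_contra hlt
    exact (Finsupp.mem_support_iff.mp hn) (hv i n (by omega))
  obtain ⟨p, hp⟩ := Int.eq_ofNat_of_zero_le (show 0 ≤ -n - 1 by omega)
  have hn' : n = -(p : ℤ) + -1 := by omega
  rw [hn', ← tz_smul_smul, tz_neg_nat]
  exact L.tn_mem1 ((mem_W_iff _).mp (h.wv_mem r hb i)).2 p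

theorem Acyclic.Ψ_surjective : Function.Surjective (h.Ψ r hb) := by
  rw [← LinearMap.range_eq_top]
  refine h.span_top _ fun w hw => ?_
  refine ⟨fun i => LaurentPolynomial.C (h.coord r ι ⟨w, hw⟩ i), ?_⟩
  rw [Acyclic.Ψ_const]
  exact congrArg Subtype.val
    ((LinearEquiv.ofBijective (h.coord r ι) hb).symm_apply_apply ⟨w, hw⟩)

theorem Acyclic.Ψ_inj0 (n : ℕ) : ∀ v ∈ MPt.N0 X.d B, h.Ψ r hb v = 0 → ∀ i, (v i).coeff n = 0 := by
  induction n with
  | zero =>
    intro v hv e i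
    obtain ⟨v', hv', hd⟩ : ∃ v' ∈ MPt.N0 X.d B, v = (fun i => LaurentPolynomial.C ((v i).coeff 0)) +
        (LaurentPolynomial.T 1 : LaurentPolynomial B) • v' := MPt.exists_shift v hv
    rw [hd, map_add, map_smul, Tn_smul] at e
    have h0 := h.W_inter (h.Ψ_const_mem r hb _) (h.Ψ_mem0 r hb v' hv') e
    rw [Acyclic.Ψ_const] at h0
    have h1 : (LinearEquiv.ofBijective (h.coord r ι) hb).symm (fun i => (v i).coeff 0) = 0 :=
      Subtype.ext h0
    rw [LinearEquiv.map_eq_zero_iff] at h1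
    exact congrFun h1 i
  | succ n ih =>
    intro v hv e i
    obtain ⟨v', hv', hd⟩ : ∃ v' ∈ MPt.N0 X.d B, v = (fun i => LaurentPolynomial.C ((v i).coeff 0)) +
        (LaurentPolynomial.T 1 : LaurentPolynomial B) • v' := MPt.exists_shift v hv
    have e' := e
    rw [hd, map_add, map_smul, Tn_smul] at e'
    have h0 := h.W_inter (h.Ψ_const_mem r hb _) (h.Ψ_mem0 r hb v' hv') e'
    rw [h0, zero_add] at e'
    have e2 : h.Ψ r hb v' = 0 := by
      have : tz X (-1) • tz X 1 • h.Ψ r hb v' = 0 := by rw [e', smul_zero]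
      rw [tz_smul_smul] at this
      simpa [tz_zero] using this
    have h3 := ih v' hv' e2 i
    rw [hd]
    show (LaurentPolynomial.C ((v i).coeff 0) + LaurentPolynomial.T 1 * v' i).coeff ((n + 1 : ℕ) : ℤ) = 0
    rw [AddMonoidAlgebra.coeff_add, Finsupp.add_apply, LaurentPolynomial.C_apply, lcoeff_T_mul,
      if_neg (by omega), zero_add]
    rw [show ((n + 1 : ℕ) : ℤ) - 1 = (n : ℤ) by push_cast; ring]
    exact h3

theorem Acyclic.Ψ_injective : Function.Injective (h.Ψ r hb) := by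
  rw [injective_iff_map_eq_zero]
  intro v hv
  obtain ⟨N, hN⟩ := MPt.exists_lo v
  have h1 : (LaurentPolynomial.T (N : ℤ) : LaurentPolynomial B) • v ∈ MPt.N0 X.d B := by
    intro i n hn
    show (LaurentPolynomial.T (N : ℤ) * v i).coeff n = 0
    rw [lcoeff_T_mul]
    exact hN i _ (by omega)
  have h2 : h.Ψ r hb ((LaurentPolynomial.T (N : ℤ) : LaurentPolynomial B) • v) = 0 := by
    rw [map_smul, hv, smul_zero]
  funext i
  refine AddMonoidAlgebra.coeff_injective ?_
  ext n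
  rcases lt_or_ge n (-(N : ℤ)) with hlt | hge
  · exact hN i n hlt
  · obtain ⟨p, hp⟩ := Int.eq_ofNat_of_zero_le (show 0 ≤ n + N by omega)
    have h3 := h.Ψ_inj0 r hb p _ h1 h2 i
    have h4 : (LaurentPolynomial.T (N : ℤ) * v i).coeff (p : ℤ) = 0 := h3
    rw [lcoeff_T_mul, ← hp, add_sub_cancel_right] at h4
    exact h4

end Basis

end PreLD

end Fermat.Agent.JPC
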